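import Fermat.Agent.GRHClasses.Exponential
import Fermat.Agent.ThreePrimes.Circle
import Fermat.Agent.MontgomeryHooley.TotientSums
import Fermat.Agent.Resonance.CharMain

/-!
# The exponential sum over primes on the whole circle, under the Riemann hypothesis

With `t = N ^ (1/6)`, every `α` is `a / q + β` with `q ≤ t ^ 4` and `|β| ≤ 1 / (q t ^ 4)`, and there
`∑_{n ≤ N} Λ n e (n α) = μ q / φ q ∑_{n ≤ N} e (n β) + O (t ^ 5 log² N)`.
-/

set_option autoImplicit false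

noncomputable section

namespace FA.GRHThreePrimes

open Finset
open FA.ThreePrimes (eAdd norm_eAdd eAdd_add moebiusR abs_moebiusR_le geomSum unitResidues twist
  trigSum arcCentres centre arc mem_arcCentres nearDist nearDist_le_abs_sub
  nearDist_sub_sub_le inv_mul_le_nearDist_centre)
open FA.GRHProgressions (GRHMod)
open scoped Real ArithmeticFunction.vonMangoldt

/-- The Riemann hypothesis for every character to a modulus `≤ N`. -/
def GRHUpTo (N : ℕ) : Prop := ∀ (q : ℕ) [NeZero q], q ≤ N → GRHMod q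

/-- `N ^ (1/6)`. -/
def sixth (N : ℕ) : ℝ := (N : ℝ) ^ (1 / 6 : ℝ)

/-- `μ q / φ q`. -/
def weight (q : ℕ) : ℝ := moebiusR q / q.totient

theorem sixth_pow (N : ℕ) : sixth N ^ 6 = N := by
  rw [sixth, ← Real.rpow_natCast, ← Real.rpow_mul (Nat.cast_nonneg N)]
  norm_num

theorem one_le_sixth {N : ℕ} (hN : 1 ≤ N) : 1 ≤ sixth N :=
  Real.one_le_rpow (by exact_mod_cast hN) (by norm_num)

theorem abs_weight_le (q : ℕ) : |weight q| ≤ 1 / q.totient := by
  rw [weight, abs_div, Nat.abs_cast]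
  exact div_le_div_of_nonneg_right (abs_moebiusR_le q) (Nat.cast_nonneg _)

theorem inv_totient_le_log {q N : ℕ} (hq : 0 < q) (hqN : q ≤ N) (hN : 2 ≤ N) :
    1 / (q.totient : ℝ) ≤ 4 * Real.log N / q := by
  have hqr : (0 : ℝ) < q := Nat.cast_pos.2 hq
  have hlog : Real.log q ≤ Real.log N := Real.log_le_log hqr (Nat.cast_le.2 hqN)
  have hl : 1 / 2 ≤ Real.log N := by
    have := Real.log_le_log two_pos (show (2 : ℝ) ≤ N by exact_mod_cast hN)
    linarith [Real.log_two_gt_d9]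
  rw [div_le_div_iff₀ (Nat.cast_pos.2 (Nat.totient_pos.2 hq)) hqr, one_mul, mul_comm]
  refine (Resonance.le_totient_mul_card_succ q).trans
    (mul_le_mul_of_nonneg_left ?_ (Nat.cast_nonneg _))
  linarith [Resonance.card_primeFactors_le_two_mul_log hq.ne']

theorem exists_near_bound : ∃ C, 0 ≤ C ∧ ∀ N : ℕ, 2 ≤ N → GRHUpTo N →
    ∀ (q : ℕ) [NeZero q], (q : ℝ) ≤ sixth N ^ 4 → ∀ a : ℤ, IsUnit (a : ZMod q) →
      ∀ β : ℝ, |β| ≤ 1 / (q * sixth N ^ 4) →
        ‖twist ((a : ℝ) / q + β) Λ N - (weight q : ℂ) * geomSum N β‖ ≤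
          C * (sixth N ^ 5 * Real.log N ^ 2) := by
  obtain ⟨C, hC, h⟩ := GRHClasses.exists_near_rational
  refine ⟨4 * C * (2 + 2 * π), by positivity, fun N hN hG q _ hq a ha β hβ => ?_⟩
  obtain ⟨t, ht⟩ : ∃ t, t = sixth N := ⟨_, rfl⟩
  rw [← ht] at hq hβ ⊢
  have ht6 : t ^ 6 = N := ht ▸ sixth_pow N
  have ht1 : 1 ≤ t := ht ▸ one_le_sixth (by omega)
  have hq1 : (1 : ℝ) ≤ q := Nat.one_le_cast.2 NeZero.one_le
  have hqN : (q : ℝ) ≤ N := hq.trans (ht6 ▸ pow_le_pow_right₀ ht1 (by norm_num))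
  have hN2 : (2 : ℝ) ≤ N := by exact_mod_cast hN
  refine (h q (hG q (Nat.cast_le.1 hqN)) a ha β N hN).trans ?_
  have hl : 0 ≤ Real.log N := Real.log_nonneg (by linarith)
  have hlog : Real.log ((q : ℝ) * N) ≤ 2 * Real.log N := by
    rw [Real.log_mul (by positivity) (by positivity)]
    linarith [Real.log_le_log (by positivity) hqN]
  obtain ⟨s, hs⟩ : ∃ s, s = √(q : ℝ) := ⟨_, rfl⟩
  have hs1 : 1 ≤ s := hs ▸ Real.one_le_sqrt.2 hq1
  have hs2 : s ^ 2 = q := hs ▸ Real.sq_sqrt (Nat.cast_nonneg q)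
  have hst : s ≤ t ^ 2 := by
    rw [hs, Real.sqrt_le_left (by positivity)]
    exact hq.trans (le_of_eq (by ring))
  have hsq : √((q : ℝ) * N) = s * t ^ 3 := by
    rw [Real.sqrt_mul (Nat.cast_nonneg q), ← hs, ← ht6, show t ^ 6 = (t ^ 3) ^ 2 by ring,
      Real.sqrt_sq (by positivity)]
  have hmain : √((q : ℝ) * N) * (1 + 2 * π * |β| * N) ≤ (2 + 2 * π) * t ^ 5 := by
    rw [hsq]
    have h1 : s * t ^ 3 ≤ t ^ 5 :=
      (mul_le_mul_of_nonneg_right hst (by positivity)).trans (le_of_eq (by ring))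
    have h2 : s * t ^ 3 * (|β| * N) ≤ t ^ 5 := by
      refine (mul_le_mul_of_nonneg_left (mul_le_mul_of_nonneg_right hβ (Nat.cast_nonneg N))
        (by positivity)).trans ?_
      rw [← ht6, ← hs2, show s * t ^ 3 * (1 / (s ^ 2 * t ^ 4) * t ^ 6) = t ^ 5 / s by field_simp]
      exact div_le_self (by positivity) hs1
    have h3 := mul_le_mul_of_nonneg_left h2 (show (0 : ℝ) ≤ 2 * π by positivity)
    nlinarith [pow_nonneg (zero_le_one.trans ht1) 5]
  calc C * √((q : ℝ) * N) * Real.log ((q : ℝ) * N) ^ 2 * (1 + 2 * π * |β| * N)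
      = C * Real.log ((q : ℝ) * N) ^ 2 * (√((q : ℝ) * N) * (1 + 2 * π * |β| * N)) := by ring
    _ ≤ C * (2 * Real.log N) ^ 2 * ((2 + 2 * π) * t ^ 5) := by
        have : 0 ≤ Real.log ((q : ℝ) * N) := Real.log_nonneg (by nlinarith)
        gcongr
    _ = _ := by ring

/-- **The approximation on the whole circle.** -/
theorem exists_uniform_approx : ∃ C, 0 ≤ C ∧ ∀ N : ℕ, 2 ≤ N → GRHUpTo N → ∀ α : ℝ,
    ∃ (q : ℕ) (a : ℤ), 0 < q ∧ (q : ℝ) ≤ sixth N ^ 4 ∧ IsUnit (a : ZMod q) ∧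
      |α - a / q| ≤ 1 / (q * sixth N ^ 4) ∧
      ‖twist α Λ N - (weight q : ℂ) * geomSum N (α - a / q)‖ ≤
        C * (sixth N ^ 5 * Real.log N ^ 2) := by
  obtain ⟨C, hC, h⟩ := exists_near_bound
  refine ⟨C, hC, fun N hN hG α => ?_⟩
  have ht4 : 1 ≤ sixth N ^ 4 := one_le_pow₀ (one_le_sixth (by omega))
  obtain ⟨n, hn⟩ : ∃ n, n = ⌊sixth N ^ 4⌋₊ := ⟨_, rfl⟩
  have hn0 : 0 < n := hn ▸ Nat.floor_pos.2 ht4
  obtain ⟨ρ, hρ, hρn⟩ := Real.exists_rat_abs_sub_le_and_den_le α hn0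
  obtain ⟨q, hq⟩ : ∃ q, q = ρ.den := ⟨_, rfl⟩
  have : NeZero q := ⟨hq ▸ ρ.den_ne_zero⟩
  have hq0 : (0 : ℝ) < q := Nat.cast_pos.2 (NeZero.pos q)
  have hunit : IsUnit (ρ.num : ZMod q) := by
    rw [ZMod.coe_int_isUnit_iff_isCoprime, isCoprime_comm, Int.isCoprime_iff_nat_coprime, hq]
    simpa using ρ.reduced
  have hqt : (q : ℝ) ≤ sixth N ^ 4 :=
    (Nat.cast_le.2 (hq ▸ hρn)).trans (hn ▸ Nat.floor_le (by linarith))
  rw [show (ρ : ℝ) = (ρ.num : ℝ) / q by rw [hq, Rat.cast_def], ← hq] at hρ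
  have hβ : |α - (ρ.num : ℝ) / q| ≤ 1 / (q * sixth N ^ 4) := by
    refine hρ.trans ?_
    rw [mul_comm (q : ℝ)]
    exact one_div_le_one_div_of_le (by positivity)
      (mul_le_mul_of_nonneg_right (hn ▸ (Nat.lt_floor_add_one _).le) hq0.le)
  refine ⟨q, ρ.num, NeZero.pos q, hqt, hunit, hβ, ?_⟩
  have := h N hN hG q hqt ρ.num hunit _ hβ
  rwa [add_sub_cancel] at this

/-- The radius of the arc at a centre. -/
def radius (N : ℕ) (z : Σ _ : ℕ, ℕ) : ℝ := 1 / (z.1 * sixth N ^ 4)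

/-- The major arcs' centres. -/
def centres (N : ℕ) : Finset (Σ _ : ℕ, ℕ) := arcCentres ⌊sixth N⌋₊

theorem centres_bounds {N : ℕ} {z : Σ _ : ℕ, ℕ} (hz : z ∈ centres N) :
    0 < z.1 ∧ (z.1 : ℝ) ≤ sixth N ∧ IsUnit ((z.2 : ℤ) : ZMod z.1) := by
  rw [centres, mem_arcCentres] at hz
  refine ⟨hz.1.1, (Nat.le_floor_iff ?_).1 hz.1.2, ?_⟩
  · exact Real.rpow_nonneg (Nat.cast_nonneg N) _
  · rw [Int.cast_natCast]
    exact (ZMod.isUnit_iff_coprime _ _).2 hz.2.2.symm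

/-- **Off the arcs.** -/
theorem exists_minor_bound : ∃ C, 0 ≤ C ∧ ∀ N : ℕ, 2 ≤ N → GRHUpTo N → ∀ α : ℝ,
    (∀ z ∈ centres N, radius N z < nearDist (α - centre z)) →
      ‖twist α Λ N‖ ≤ C * (sixth N ^ 5 * Real.log N ^ 2) := by
  obtain ⟨C, hC, h⟩ := exists_uniform_approx
  refine ⟨C + 8, by positivity, fun N hN hG α hout => ?_⟩
  obtain ⟨q, a, hq, hqt, ha, hβ, happ⟩ := h N hN hG α
  obtain ⟨t, ht⟩ : ∃ t, t = sixth N := ⟨_, rfl⟩
  rw [← ht] at hqt hβ happ ⊢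
  have ht6 : t ^ 6 = N := ht ▸ sixth_pow N
  have ht1 : 1 ≤ t := ht ▸ one_le_sixth (by omega)
  have : NeZero q := ⟨hq.ne'⟩
  have htq : t < q := by
    by_contra hle
    rw [not_lt] at hle
    obtain ⟨r, hr⟩ : ∃ r, r = (a : ZMod q).val := ⟨_, rfl⟩
    have hmem : (⟨q, r⟩ : Σ _ : ℕ, ℕ) ∈ centres N := by
      refine mem_arcCentres.2 ⟨⟨hq, Nat.le_floor (ht ▸ hle)⟩, hr ▸ ZMod.val_lt _, ?_⟩
      have h1 : IsUnit ((r : ℕ) : ZMod q) := by rwa [hr, ZMod.natCast_zmod_val]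
      exact ((ZMod.isUnit_iff_coprime r q).1 h1).symm
    obtain ⟨m, hm⟩ : (q : ℤ) ∣ a - r := by
      rw [← ZMod.intCast_zmod_eq_zero_iff_dvd, hr]
      push_cast
      rw [ZMod.natCast_zmod_val, sub_self]
    refine absurd (hout _ hmem) (not_lt.2 ((nearDist_le_abs_sub _ m).trans ?_))
    rw [radius, ← ht]
    refine le_of_eq_of_le (congrArg abs ?_) hβ
    have h3 : (a : ℝ) - r = q * m := by exact_mod_cast hm
    have hq0 : (q : ℝ) ≠ 0 := Nat.cast_ne_zero.2 hq.ne'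
    simp only [centre]
    field_simp
    linarith
  have hqN : q ≤ N :=
    Nat.cast_le.1 (hqt.trans (ht6 ▸ pow_le_pow_right₀ ht1 (show 4 ≤ 6 by norm_num)))
  have hl : 1 / 2 ≤ Real.log N := by
    have := Real.log_le_log two_pos (show (2 : ℝ) ≤ N by exact_mod_cast hN)
    linarith [Real.log_two_gt_d9]
  have hT : ‖geomSum N (α - a / q)‖ ≤ N := by
    refine (norm_sum_le _ _).trans ?_
    simp [norm_eAdd]
  have hM : ‖(weight q : ℂ) * geomSum N (α - a / q)‖ ≤ 4 * Real.log N * t ^ 5 := by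
    rw [norm_mul, Complex.norm_real, Real.norm_eq_abs]
    have hw : |weight q| ≤ 4 * Real.log N / t :=
      ((abs_weight_le q).trans (inv_totient_le_log hq hqN hN)).trans
        (div_le_div_of_nonneg_left (by positivity) (by linarith) htq.le)
    refine (mul_le_mul hw hT (norm_nonneg _) (by positivity)).trans (le_of_eq ?_)
    rw [← ht6]
    field_simp
  have h8 : 4 * Real.log N * t ^ 5 ≤ 8 * (t ^ 5 * Real.log N ^ 2) := by
    have := mul_le_mul_of_nonneg_right hl (show 0 ≤ Real.log N * t ^ 5 by positivity)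
    nlinarith
  have := norm_le_norm_sub_add (twist α Λ N) ((weight q : ℂ) * geomSum N (α - a / q))
  linarith

/-- **The arcs are disjoint.** -/
theorem pairwiseDisjoint_arcs {N : ℕ} (M : ℕ) (ht : 2 ≤ sixth N) :
    ((centres N : Finset _) : Set (Σ _ : ℕ, ℕ)).PairwiseDisjoint
      fun z => arc M (radius N z) z := by
  intro z hz w hw hne
  rw [Function.onFun, disjoint_left]
  intro h h1 h2
  rw [arc, mem_filter] at h1 h2
  have h3 := (inv_mul_le_nearDist_centre hz hw hne).trans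
    ((nearDist_sub_sub_le _ _ _).trans (add_le_add h1.2 h2.2))
  obtain ⟨t, hte⟩ : ∃ t, t = sixth N := ⟨_, rfl⟩
  rw [← hte] at ht
  have hrad : ∀ y ∈ centres N, radius N y ≤ 1 / t ^ 4 := fun y hy => by
    rw [radius, ← hte]
    exact one_div_le_one_div_of_le (by positivity)
      (le_mul_of_one_le_left (by positivity) (by exact_mod_cast (centres_bounds hy).1))
  have hP : (⌊t⌋₊ : ℝ) ≤ t := Nat.floor_le (by linarith)
  have hP0 : (0 : ℝ) < ⌊t⌋₊ := Nat.cast_pos.2 (Nat.floor_pos.2 (by linarith))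
  have h5 : 1 / (t * t) ≤ 1 / ((⌊t⌋₊ : ℝ) * ⌊t⌋₊) :=
    one_div_le_one_div_of_le (by positivity) (mul_le_mul hP hP hP0.le (by linarith))
  have h6 : 1 / t ^ 4 + 1 / t ^ 4 < 1 / (t * t) := by
    rw [← add_div, div_lt_div_iff₀ (by positivity) (by positivity)]
    nlinarith [mul_le_mul ht ht two_pos.le (by linarith)]
  rw [← hte] at h3
  linarith [hrad z (mem_coe.1 hz), hrad w (mem_coe.1 hw)]

theorem norm_cube_sub_le_sq (x y : ℂ) :
    ‖x ^ 3 - y ^ 3‖ ≤ 2 * (‖x‖ ^ 2 + ‖y‖ ^ 2) * ‖x - y‖ := by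
  rw [show x ^ 3 - y ^ 3 = (x - y) * (x * x + x * y + y * y) by ring, norm_mul,
    mul_comm (2 * _) ‖x - y‖]
  refine mul_le_mul_of_nonneg_left ((norm_add₃_le).trans ?_) (norm_nonneg _)
  simp only [norm_mul]
  nlinarith [sq_nonneg (‖x‖ - ‖y‖)]

/-- The mean square of `geomSum` on a translated grid. -/
theorem sum_norm_sq_geomSum {N M : ℕ} (hM : N < M) (c : ℝ) :
    ∑ h ∈ range M, ‖geomSum N ((h : ℝ) / M + c)‖ ^ 2 = M * N := by
  have e : ∀ h : ℕ, geomSum N ((h : ℝ) / M + c) = trigSum (fun n => eAdd (n * c)) N (h / M) :=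
    fun h => by
      rw [geomSum, trigSum, show Ioc 0 N = Icc 1 N from rfl]
      exact sum_congr rfl fun n _ => by rw [mul_add, eAdd_add, mul_comm]
  simp only [e]
  rw [ThreePrimes.sum_norm_sq_grid _ hM]
  simp [norm_eAdd]

/-- `∑_{q ≤ n} 1 / φ q ≪ log n`. -/
theorem exists_sum_inv_totient_le : ∃ C, 0 ≤ C ∧ ∀ n : ℕ, 1 ≤ n →
    ∑ q ∈ Icc 1 n, ((q.totient : ℕ) : ℝ)⁻¹ ≤ C * (1 + Real.log n) := by
  obtain ⟨B, K, hK, h⟩ := MontgomeryHooley.exists_sum_inv_totient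
  have hc := PrimesMinusOne.one_le_titchmarshConst
  refine ⟨PrimesMinusOne.titchmarshConst + |B| + K, by positivity, fun n hn => ?_⟩
  have h1 := (abs_le.1 (h n hn)).2
  have hl : 0 ≤ Real.log n := Real.log_natCast_nonneg n
  have h2 : K * (1 + Real.log n) / n ≤ K * (1 + Real.log n) :=
    div_le_self (by positivity) (by exact_mod_cast hn)
  have h3 : 0 ≤ |B| * Real.log n := by positivity
  nlinarith [le_abs_self B]

end FA.GRHThreePrimes

end
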