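import Fermat.Agent.GRHThreePrimes.Arcs
import Fermat.Agent.ThreePrimes.Main

/-!
# Three primes on the Riemann hypothesis

`∑_{i+j+k=N} Λ i Λ j Λ k = 𝔖 N N² / 2 + O (N ^ (11/6) log³ N)` (Hardy and Littlewood, 1923).
-/

set_option autoImplicit false

noncomputable section

namespace FA.GRHThreePrimes

open Finset Complex
open FA.ThreePrimes (eAdd norm_eAdd eAdd_add moebiusR geomSum twist trigSum tripleSum triple clip
  centre arc mainSummand singularTerm singularSeries powerPart)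
open scoped Real ArithmeticFunction.vonMangoldt

/-- `N ^ (11/6) log³ N`. -/
def errorTerm (N : ℕ) : ℝ := sixth N ^ 11 * Real.log N ^ 3

theorem errorTerm_eq (N : ℕ) : errorTerm N = (N : ℝ) ^ (11 / 6 : ℝ) * Real.log N ^ 3 := by
  rw [errorTerm, sixth, ← Real.rpow_natCast, ← Real.rpow_mul (Nat.cast_nonneg N)]
  norm_num

theorem sum_inv_sq_Ioc_le {P n : ℕ} (hP : 0 < P) (h : P ≤ n) :
    ∑ q ∈ Ioc P n, (1 : ℝ) / (q : ℝ) ^ 2 ≤ (1 : ℝ) / (P : ℝ) := by
  simp only [one_div]
  refine (sum_Ioc_inv_sq_le_sub hP.ne' h).trans ?_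
  simp

theorem exists_truncation : ∃ C, 0 ≤ C ∧ ∀ N P : ℕ, 2 ≤ N → 0 < P → P ≤ N →
    |singularSeries N - ∑ q ∈ Icc 1 P, singularTerm N q| ≤
      16 * Real.log N ^ 2 / P + C * (N : ℝ) ^ (-(1 / 4) : ℝ) := by
  obtain ⟨C, hC, h⟩ := ThreePrimes.exists_singular_tail
  refine ⟨C, hC.le, fun N P hN hP hPN => ?_⟩
  have hsplit : ∑ q ∈ Icc 1 N, singularTerm N q =
      ∑ q ∈ Icc 1 P, singularTerm N q + ∑ q ∈ Ioc P N, singularTerm N q := by
    rw [← sum_union (disjoint_left.2 fun q h1 h2 => by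
      rw [mem_Icc] at h1; rw [mem_Ioc] at h2; omega)]
    refine sum_congr ?_ fun q _ => rfl
    ext q
    simp only [mem_Icc, mem_Ioc, mem_union]
    omega
  have htail : |∑ q ∈ Ioc P N, singularTerm N q| ≤ 16 * Real.log N ^ 2 / P := by
    refine (abs_sum_le_sum_abs _ _).trans ((sum_le_sum (g := fun q : ℕ =>
      16 * Real.log N ^ 2 * (1 / (q : ℝ) ^ 2)) fun q hq => ?_).trans ?_)
    · rw [mem_Ioc] at hq
      have hq0 : 0 < q := by omega
      have hφ : (0 : ℝ) < q.totient := Nat.cast_pos.2 (Nat.totient_pos.2 hq0)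
      have h1 := pow_le_pow_left₀ (by positivity) (inv_totient_le_log hq0 hq.2 hN) 2
      refine le_trans ?_ (h1.trans (le_of_eq (by ring)))
      rw [ThreePrimes.singularTerm_apply, abs_div, abs_mul, abs_of_pos (pow_pos hφ 3),
        show (1 / (q.totient : ℝ)) ^ 2 = 1 * q.totient / (q.totient : ℝ) ^ 3 by field_simp]
      exact div_le_div_of_nonneg_right (mul_le_mul (ThreePrimes.abs_moebiusR_le q)
        (ThreePrimes.abs_ramanujan_le N q) (abs_nonneg _) zero_le_one) (by positivity)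
    · rw [← mul_sum]
      exact (mul_le_mul_of_nonneg_left (sum_inv_sq_Ioc_le hP hPN) (by positivity)).trans
        (le_of_eq (by ring))
  have hN0 : (0 : ℝ) < N := Nat.cast_pos.2 (by omega)
  have h2 : C * ((N + 1 : ℕ) : ℝ) ^ (-(1 / 4) : ℝ) ≤ C * (N : ℝ) ^ (-(1 / 4) : ℝ) :=
    mul_le_mul_of_nonneg_left (Real.rpow_le_rpow_of_nonpos hN0
      (Nat.cast_le.2 (Nat.le_succ N)) (by norm_num)) hC.le
  have h3 : |singularSeries N - ∑ q ∈ Icc 1 P, singularTerm N q| ≤
      C * (N : ℝ) ^ (-(1 / 4) : ℝ) +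
        |∑ q ∈ Icc 1 N, singularTerm N q - ∑ q ∈ Icc 1 P, singularTerm N q| :=
    (abs_sub_le _ _ _).trans (add_le_add ((h N N).1.trans h2) le_rfl)
  rw [hsplit, add_sub_cancel_left] at h3
  linarith

/-- The weight of a centre. -/
def coeff (N : ℕ) (z : Σ _ : ℕ, ℕ) : ℂ :=
  ((weight z.1 ^ 3 : ℝ) : ℂ) * eAdd (-(N * centre z))

theorem norm_coeff_le (N : ℕ) (z : Σ _ : ℕ, ℕ) :
    ‖coeff N z‖ ≤ 1 / (z.1.totient : ℝ) ^ 3 := by
  rw [coeff, norm_mul, norm_eAdd, mul_one, Complex.norm_real, Real.norm_eq_abs, abs_pow,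
    ← one_div_pow]
  exact pow_le_pow_left₀ (abs_nonneg _) (abs_weight_le _) 3

/-- **The formula for large `N`.** -/
theorem exists_asymptotic_large : ∃ C, 0 ≤ C ∧ ∀ N : ℕ, 64 ≤ N → GRHUpTo N →
    ‖tripleSum (fun n => (Λ n : ℂ)) N - ((singularSeries N * ((N : ℝ) ^ 2 / 2) : ℝ) : ℂ)‖ ≤
      C * errorTerm N := by
  obtain ⟨C₁, hC₁, hmin⟩ := exists_minor_bound
  obtain ⟨C₂, hC₂, hmaj⟩ := exists_near_bound
  obtain ⟨Cs, hCs, hser⟩ := ThreePrimes.exists_singular_tail
  obtain ⟨Ct, hCt, htr⟩ := exists_truncation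
  obtain ⟨K, hK, hφsum⟩ := exists_sum_inv_totient_le
  obtain ⟨Z₀, hZ₀⟩ : ∃ Z₀ : ℝ, Z₀ = 4 * ∑' q : ℕ, (q : ℝ) ^ (-(3 / 2) : ℝ) := ⟨_, rfl⟩
  have hZ₀0 : 0 ≤ Z₀ := hZ₀ ▸ mul_nonneg (by norm_num) (tsum_nonneg fun q => by positivity)
  refine ⟨6 * C₁ + 2 * C₂ * (6 + 2 * K) + 4 * Z₀ + 4 * Cs + 16 + Ct, by positivity,
    fun N hN hG => ?_⟩
  obtain ⟨t, ht⟩ : ∃ t, t = sixth N := ⟨_, rfl⟩
  obtain ⟨l, hl⟩ : ∃ l, l = Real.log N := ⟨_, rfl⟩
  have ht6 : t ^ 6 = N := ht ▸ sixth_pow N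
  have ht2 : 2 ≤ t := by
    have h64 : (2 : ℝ) ^ 6 ≤ t ^ 6 := by
      rw [ht6]
      exact_mod_cast hN
    exact le_of_pow_le_pow_left₀ (by norm_num) (ht ▸ Real.rpow_nonneg (Nat.cast_nonneg N) _) h64
  have ht0 : 0 < t := by linarith
  have ht1 : 1 ≤ t := by linarith
  have hN2 : 2 ≤ N := by omega
  have hN1 : (1 : ℝ) ≤ N := by exact_mod_cast (show 1 ≤ N by omega)
  have hl2 : 2 ≤ l := by
    rw [hl, Real.le_log_iff_exp_le (by linarith), show (2 : ℝ) = ((2 : ℕ) : ℝ) * 1 by norm_num,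
      Real.exp_nat_mul]
    have h8 : (64 : ℝ) ≤ N := by exact_mod_cast hN
    refine le_trans ?_ h8
    nlinarith [Real.exp_one_lt_d9, Real.exp_pos 1]
  have hl0 : 0 < l := by linarith
  have hl1 : 1 ≤ l := by linarith
  obtain ⟨P, hP⟩ : ∃ P, P = ⌊t⌋₊ := ⟨_, rfl⟩
  have hP0 : 0 < P := hP ▸ Nat.floor_pos.2 ht1
  have hPt : (P : ℝ) ≤ t := hP ▸ Nat.floor_le ht0.le
  have hPN : P ≤ N :=
    Nat.cast_le.1 (hPt.trans (le_of_le_of_eq (le_self_pow₀ ht1 (by norm_num)) ht6))
  have hcentres : centres N = ThreePrimes.arcCentres P := by rw [centres, hP, ht]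
  obtain ⟨M, hM⟩ : ∃ M, M = 3 * N := ⟨_, rfl⟩
  have : NeZero M := ⟨by omega⟩
  have hM' : (M : ℝ) = 3 * N := by rw [hM]; push_cast; ring
  have hM0 : (0 : ℝ) < M := Nat.cast_pos.2 (NeZero.pos M)
  have hNM : N < M := by omega
  have hlogM : 1 + Real.log M ≤ 3 * l := by
    rw [hM', Real.log_mul (by norm_num) (by linarith), ← hl]
    have : Real.log 3 ≤ 2 := by
      rw [Real.log_le_iff_le_exp (by norm_num)]
      linarith [Real.add_one_le_exp 2]
    linarith
  have hdisj := pairwiseDisjoint_arcs (N := N) M (ht ▸ ht2)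
  obtain ⟨F, hF⟩ : ∃ F : ℕ → ℂ, F = fun h : ℕ =>
      twist ((h : ℝ) / M) Λ N ^ 3 * eAdd (-(N * ((h : ℝ) / M))) := ⟨_, rfl⟩
  obtain ⟨minor, hminor⟩ : ∃ m, m = range M \ (centres N).biUnion
      fun z => arc M (radius N z) z := ⟨_, rfl⟩
  obtain ⟨E, hE⟩ : ∃ E, E = t ^ 5 * l ^ 2 := ⟨_, rfl⟩
  have hE0 : 0 ≤ E := by rw [hE]; positivity
  have htotal : ∑ h ∈ range M, F h = M * tripleSum (fun n => (Λ n : ℂ)) N := by
    rw [← ThreePrimes.sum_cube_grid (fun n => (Λ n : ℂ)) (show 3 * N ≤ M by omega) 0, hF]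
    refine sum_congr rfl fun h _ => ?_
    simp only [add_zero, ThreePrimes.twist_eq_trigSum]
  have hsq : ∀ S ⊆ range M, ∑ h ∈ S, ‖twist ((h : ℝ) / M) Λ N‖ ^ 2 ≤ M * (6 * N * l) := by
    intro S hS
    refine (sum_le_sum_of_subset_of_nonneg hS fun i _ _ => sq_nonneg _).trans ?_
    simp only [ThreePrimes.twist_eq_trigSum]
    rw [ThreePrimes.sum_norm_sq_grid (fun n => (Λ n : ℂ)) hNM]
    refine mul_le_mul_of_nonneg_left ?_ (Nat.cast_nonneg M)
    refine (sum_le_sum (g := fun n => l * Λ n) fun n hn => ?_).trans ?_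
    · rw [mem_Icc] at hn
      rw [Complex.norm_real, Real.norm_eq_abs, sq_abs, sq, hl]
      exact mul_le_mul_of_nonneg_right (ArithmeticFunction.vonMangoldt_le_log.trans
        (Real.log_le_log (Nat.cast_pos.2 hn.1) (Nat.cast_le.2 hn.2)))
        ArithmeticFunction.vonMangoldt_nonneg
    · rw [← mul_sum, mul_comm _ l]
      exact mul_le_mul_of_nonneg_left (ThreePrimes.sum_vonMangoldt_le N) hl0.le
  have p1 : ‖∑ h ∈ minor, F h‖ ≤ C₁ * E * (M * (6 * N * l)) := by
    refine (norm_sum_le _ _).trans ((sum_le_sum (g := fun h : ℕ =>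
      C₁ * E * ‖twist ((h : ℝ) / M) Λ N‖ ^ 2) fun h hh => ?_).trans ?_)
    · rw [hminor, mem_sdiff, mem_biUnion] at hh
      rw [hF, norm_mul, norm_eAdd, mul_one, norm_pow, pow_succ' _ 2]
      refine mul_le_mul_of_nonneg_right ?_ (sq_nonneg _)
      rw [hE, ht, hl]
      refine hmin N hN2 hG _ fun z hz => ?_
      by_contra hle
      exact hh.2 ⟨z, hz, mem_filter.2 ⟨hh.1, not_lt.1 hle⟩⟩
    · rw [← mul_sum]
      exact mul_le_mul_of_nonneg_left (hsq _ (hminor ▸ sdiff_subset)) (by positivity)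
  have hg : ∀ z : Σ _ : ℕ, ℕ, ∑ h ∈ arc M (radius N z) z,
      ‖geomSum N ((h : ℝ) / M + -centre z)‖ ^ 2 ≤ M * N := fun z =>
    (sum_le_sum_of_subset_of_nonneg (filter_subset _ _) fun i _ _ => sq_nonneg _).trans
      (le_of_eq (sum_norm_sq_geomSum hNM _))
  have p2 : ∀ z ∈ centres N, ∀ h ∈ arc M (radius N z) z,
      ‖F h - coeff N z * mainSummand N ((h : ℝ) / M + -centre z)‖ ≤
        2 * C₂ * E * (‖twist ((h : ℝ) / M) Λ N‖ ^ 2 +
          weight z.1 ^ 2 * ‖geomSum N ((h : ℝ) / M + -centre z)‖ ^ 2) := by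
    rintro ⟨q, r⟩ hz h hh
    obtain ⟨hq0, hqt, hu⟩ := centres_bounds hz
    simp only at hq0 hqt hu
    have : NeZero q := ⟨hq0.ne'⟩
    rw [arc, mem_filter, ThreePrimes.nearDist] at hh
    obtain ⟨k, hk⟩ : ∃ k, k = round ((h : ℝ) / M - centre ⟨q, r⟩) := ⟨_, rfl⟩
    obtain ⟨β, hβ⟩ : ∃ β, β = (h : ℝ) / M - centre ⟨q, r⟩ - k := ⟨_, rfl⟩
    rw [← hk, ← hβ, radius] at hh
    have hq : (q : ℝ) ≠ 0 := Nat.cast_ne_zero.2 hq0.ne'
    have hα : (h : ℝ) / M = (((r : ℤ) + k * q : ℤ) : ℝ) / q + β := by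
      rw [hβ, centre]
      push_cast
      field_simp
      ring
    have hunit : IsUnit (((r : ℤ) + k * q : ℤ) : ZMod q) := by
      push_cast
      rw [ZMod.natCast_self, mul_zero, add_zero]
      exact_mod_cast hu
    have happ := hmaj N hN2 hG q (hqt.trans (le_self_pow₀ (ht ▸ ht1) (by norm_num))) _ hunit β hh.2
    rw [← hα, ← ht, ← hl, ← hE] at happ
    have hg' : geomSum N β = geomSum N ((h : ℝ) / M + -centre ⟨q, r⟩) := by
      rw [hβ, ThreePrimes.geomSum_sub_intCast, sub_eq_add_neg]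
    rw [hg'] at happ
    rw [hF, coeff, mainSummand]
    simp only
    have e : eAdd (-((N : ℝ) * centre ⟨q, r⟩)) * eAdd (-(N * ((h : ℝ) / M + -centre ⟨q, r⟩))) =
        eAdd (-(N * ((h : ℝ) / M))) := by
      rw [← eAdd_add]
      ring_nf
    rw [mul_mul_mul_comm, e, ← sub_mul, norm_mul, norm_eAdd, mul_one, Complex.ofReal_pow,
      ← mul_pow]
    refine (norm_cube_sub_le_sq _ _).trans ((mul_le_mul_of_nonneg_left happ
      (by positivity)).trans (le_of_eq ?_))
    rw [norm_mul, Complex.norm_real, Real.norm_eq_abs, mul_pow, sq_abs]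
    ring
  have hwsum : ∑ z ∈ centres N, weight z.1 ^ 2 ≤ K * (2 * l) := by
    rw [hcentres, ThreePrimes.arcCentres, sum_sigma]
    refine (sum_le_sum (g := fun q : ℕ => ((q.totient : ℕ) : ℝ)⁻¹) fun q hq => ?_).trans
      ((hφsum P hP0).trans (mul_le_mul_of_nonneg_left ?_ hK))
    · simp only [sum_const]
      rw [ThreePrimes.card_unitResidues, nsmul_eq_mul, ← sq_abs]
      rw [mem_Icc] at hq
      have : (q.totient : ℝ) ≠ 0 := Nat.cast_ne_zero.2 (Nat.totient_pos.2 hq.1).ne'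
      refine (mul_le_mul_of_nonneg_left (pow_le_pow_left₀ (abs_nonneg _) (abs_weight_le q) 2)
        (Nat.cast_nonneg _)).trans (le_of_eq ?_)
      field_simp
    · have := Real.log_le_log (Nat.cast_pos.2 hP0) (Nat.cast_le.2 hPN : (P : ℝ) ≤ N)
      rw [← hl] at this
      linarith
  have p3 : ‖∑ z ∈ centres N, ∑ h ∈ arc M (radius N z) z,
      (F h - coeff N z * mainSummand N ((h : ℝ) / M + -centre z))‖ ≤
        2 * C₂ * E * (M * (6 * N * l) + K * (2 * l) * (M * N)) := by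
    refine (norm_sum_le _ _).trans ((sum_le_sum fun z hz => (norm_sum_le _ _).trans
      (sum_le_sum (p2 z hz))).trans ?_)
    simp only [← mul_sum, sum_add_distrib]
    refine mul_le_mul_of_nonneg_left (add_le_add ?_ ?_) (by positivity)
    · rw [← sum_biUnion hdisj]
      exact hsq _ (biUnion_subset.2 fun z _ => filter_subset _ _)
    · refine (sum_le_sum fun z _ => mul_le_mul_of_nonneg_left (hg z) (sq_nonneg _)).trans ?_
      rw [← sum_mul]
      exact mul_le_mul_of_nonneg_right hwsum (by positivity)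
  have hcsum : ∑ z ∈ centres N, ‖coeff N z‖ ≤ Z₀ := by
    rw [hcentres, ThreePrimes.arcCentres, sum_sigma, hZ₀, ← tsum_mul_left]
    refine le_trans (sum_le_sum (g := fun q : ℕ => 4 * (q : ℝ) ^ (-(3 / 2) : ℝ)) fun q hq => ?_)
      (Summable.sum_le_tsum _ (fun i _ => by positivity)
        ((Real.summable_nat_rpow.2 (by norm_num)).mul_left 4))
    rw [mem_Icc] at hq
    refine (sum_le_card_nsmul _ _ (1 / (q.totient : ℝ) ^ 3)
      fun r _ => norm_coeff_le N ⟨q, r⟩).trans ?_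
    rw [ThreePrimes.card_unitResidues, nsmul_eq_mul]
    refine le_trans (le_of_eq ?_) (ThreePrimes.inv_totient_sq_le hq.1)
    have : (q.totient : ℝ) ≠ 0 := Nat.cast_ne_zero.2 (Nat.totient_pos.2 hq.1).ne'
    field_simp
  have p4 : ∀ z ∈ centres N, ‖∑ h ∈ range M \ arc M (radius N z) z,
      mainSummand N ((h : ℝ) / M + -centre z)‖ ≤ 3 * (t ^ 10 * (M * l)) := by
    intro z hz
    obtain ⟨hq0, hqt, -⟩ := centres_bounds hz
    have hqr : (0 : ℝ) < z.1 := Nat.cast_pos.2 hq0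
    have hδ0 : 0 < radius N z := by rw [radius, ← ht]; positivity
    obtain ⟨Z, hZ⟩ : ∃ Z, Z = (z.1 : ℝ) * t ^ 4 / 2 := ⟨_, rfl⟩
    have hZ0 : 0 < Z := by rw [hZ]; positivity
    have hZ' : 1 / (2 * radius N z) = Z := by
      rw [hZ, radius, ← ht]
      field_simp
    refine (norm_sum_le _ _).trans ((sum_le_sum (g := fun h : ℕ =>
      Z ^ 2 * clip Z ((h : ℝ) / M - centre z)) fun h hh => ?_).trans ?_)
    · rw [mem_sdiff, arc, mem_filter, not_and, not_le] at hh
      have hd := hh.2 hh.1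
      obtain ⟨d, hde⟩ : ∃ d, d = ThreePrimes.nearDist ((h : ℝ) / M - centre z) := ⟨_, rfl⟩
      rw [← hde] at hd
      rw [← sub_eq_add_neg, mainSummand, norm_mul, norm_eAdd, mul_one, norm_pow]
      have h1 := ThreePrimes.norm_geom_le ((h : ℝ) / M - centre z) 0 N
      have h2 : clip ((N - 0 : ℕ) : ℝ) ((h : ℝ) / M - centre z) ≤ 1 / (2 * d) :=
        ThreePrimes.clip_le_inv (hδ0.trans hd) hde.le
      have h3 : 1 / (2 * d) ≤ Z :=
        hZ' ▸ one_div_le_one_div_of_le (by positivity) (by linarith)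
      have h4 : clip Z ((h : ℝ) / M - centre z) = 1 / (2 * d) := by
        rw [clip, if_neg (by rw [← hde]; linarith), ← hde, min_eq_right h3]
      rw [h4, pow_succ _ 2]
      have h5 : ‖geomSum N ((h : ℝ) / M - centre z)‖ ≤ 1 / (2 * d) := h1.trans h2
      exact mul_le_mul (pow_le_pow_left₀ (norm_nonneg _) (h5.trans h3) 2) h5 (norm_nonneg _)
        (sq_nonneg _)
    · rw [← mul_sum]
      refine (mul_le_mul_of_nonneg_left ((sum_le_sum_of_subset_of_nonneg sdiff_subset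
        fun i _ _ => ThreePrimes.clip_nonneg hZ0.le _).trans
          (ThreePrimes.sum_clip_grid_le (centre z) hZ0.le)) (sq_nonneg Z)).trans ?_
      have hZt : Z ≤ t ^ 5 / 2 := by
        rw [hZ, show t ^ 5 / 2 = t * t ^ 4 / 2 by ring]
        have := mul_le_mul_of_nonneg_right (ht ▸ hqt) (show (0 : ℝ) ≤ t ^ 4 by positivity)
        linarith
      have hZN : 5 * Z + 2 * (M : ℝ) * (1 + Real.log M) ≤ 8 * (M * l) := by
        have h1 : t ^ 5 ≤ M := by
          rw [hM']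
          calc t ^ 5 ≤ t ^ 6 := pow_le_pow_right₀ ht1 (by norm_num)
            _ ≤ _ := by linarith
        have h2 := mul_le_mul_of_nonneg_left hlogM hM0.le
        have h3 := mul_le_mul_of_nonneg_left hl2 hM0.le
        linarith
      refine (mul_le_mul (pow_le_pow_left₀ hZ0.le hZt 2) hZN ?_ (by positivity)).trans ?_
      · have := Real.log_nonneg (show (1 : ℝ) ≤ M by rw [hM']; linarith)
        positivity
      · have : 0 ≤ t ^ 10 * ((M : ℝ) * l) := by positivity
        linarith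
  have p5 : ‖∑ z ∈ centres N, coeff N z * ∑ h ∈ range M \ arc M (radius N z) z,
      mainSummand N ((h : ℝ) / M + -centre z)‖ ≤ Z₀ * (3 * (t ^ 10 * (M * l))) := by
    refine (norm_sum_le _ _).trans ((sum_le_sum fun z hz => ?_).trans
      ((sum_mul _ _ _).ge.trans (mul_le_mul_of_nonneg_right hcsum (by positivity))))
    rw [norm_mul]
    exact mul_le_mul_of_nonneg_left (p4 z hz) (norm_nonneg _)
  obtain ⟨S, hS⟩ : ∃ S, S = ∑ q ∈ Icc 1 P, singularTerm N q := ⟨_, rfl⟩
  have hcval : ∑ z ∈ centres N, coeff N z = (S : ℂ) := by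
    rw [hcentres, ThreePrimes.arcCentres, sum_sigma, hS, Complex.ofReal_sum]
    refine sum_congr rfl fun q hq => ?_
    rw [mem_Icc] at hq
    simp only [coeff, weight]
    rw [← mul_sum, ThreePrimes.singularTerm_apply, Complex.ofReal_div, Complex.ofReal_mul,
      ThreePrimes.ramanujan_eq hq.1, div_pow, ThreePrimes.moebiusR_cube, Complex.ofReal_div]
    rw [sum_congr rfl fun r _ => show eAdd (-((N : ℝ) * centre ⟨q, r⟩)) =
      eAdd (((-N : ℤ) : ℝ) * r / q) by simp only [centre]; push_cast; ring_nf]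
    push_cast
    ring
  have hident : ∑ h ∈ range M, F h -
      (M : ℂ) * tripleSum (fun _ => 1) N * ∑ z ∈ centres N, coeff N z =
      ∑ h ∈ minor, F h + ∑ z ∈ centres N, ∑ h ∈ arc M (radius N z) z,
          (F h - coeff N z * mainSummand N ((h : ℝ) / M + -centre z)) -
        ∑ z ∈ centres N, coeff N z *
          ∑ h ∈ range M \ arc M (radius N z) z, mainSummand N ((h : ℝ) / M + -centre z) := by
    have h1 : ∀ z ∈ centres N, (M : ℂ) * tripleSum (fun _ => 1) N * coeff N z =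
        ∑ h ∈ arc M (radius N z) z, coeff N z * mainSummand N ((h : ℝ) / M + -centre z) +
          coeff N z * ∑ h ∈ range M \ arc M (radius N z) z,
            mainSummand N ((h : ℝ) / M + -centre z) := by
      intro z _
      rw [← mul_sum, ← mul_add, add_comm (∑ h ∈ arc M _ z, _), sum_sdiff
        (show arc M (radius N z) z ⊆ range M from filter_subset _ _),
        ThreePrimes.sum_mainSummand_grid (show 3 * N ≤ M by omega)]
      ring
    rw [mul_sum, sum_congr rfl h1, sum_add_distrib,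
      show ∑ h ∈ range M, F h = ∑ h ∈ minor, F h +
        ∑ z ∈ centres N, ∑ h ∈ arc M (radius N z) z, F h by
      rw [← sum_biUnion hdisj, hminor, sum_sdiff]
      exact biUnion_subset.2 fun z _ => filter_subset _ _]
    simp only [sum_sub_distrib]
    ring
  obtain ⟨B, hB⟩ : ∃ B, B = t ^ 11 * l ^ 3 := ⟨_, rfl⟩
  have hgoal : errorTerm N = B := by rw [errorTerm, hB, ht, hl]
  rw [hgoal]
  have hB0 : 0 ≤ B := by rw [hB]; positivity
  have hEN : E * (N * l) = B := by rw [hE, hB, ← ht6]; ring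
  have hpow : ∀ i j : ℕ, i ≤ 11 → j ≤ 3 → t ^ i * l ^ j ≤ B := fun i j hi hj => by
    rw [hB]
    exact mul_le_mul (pow_le_pow_right₀ ht1 hi) (pow_le_pow_right₀ hl1 hj) (by positivity)
      (by positivity)
  have hmain : ‖tripleSum (fun n => (Λ n : ℂ)) N - tripleSum (fun _ => 1) N * (S : ℂ)‖ ≤
      (6 * C₁ + 2 * C₂ * (6 + 2 * K) + 4 * Z₀) * B := by
    refine le_of_mul_le_mul_left ?_ hM0
    rw [← Complex.norm_natCast M, ← norm_mul, mul_sub, ← mul_assoc, ← hcval, ← htotal, hident,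
      Complex.norm_natCast]
    refine (norm_sub_le _ _).trans ((add_le_add ((norm_add_le _ _).trans (add_le_add p1 p3))
      p5).trans ?_)
    have h1 : (M : ℝ) * (Z₀ * (t ^ 10 * l ^ 1)) ≤ M * (Z₀ * B) := by
      have := hpow 10 1 (by norm_num) (by norm_num)
      gcongr
    have h2 : 0 ≤ (M : ℝ) * (Z₀ * B) := by positivity
    rw [pow_one] at h1
    rw [← hEN] at h1 h2 ⊢
    linarith
  obtain ⟨-, hsb⟩ := hser N P
  have hS2 : |S| ≤ 2 * Cs := by
    have hst := (hser N P).1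
    rw [← hS] at hst
    have h1 : ((P + 1 : ℕ) : ℝ) ^ (-(1 / 4) : ℝ) ≤ 1 :=
      Real.rpow_le_one_of_one_le_of_nonpos (by exact_mod_cast Nat.le_add_left 1 P) (by norm_num)
    have := abs_le.1 (hst.trans (mul_le_mul_of_nonneg_left h1 hCs.le))
    have := abs_le.1 hsb
    rw [abs_le]
    constructor <;> linarith
  have hJ : ‖(tripleSum (fun _ => 1) N - (((N : ℝ) ^ 2 / 2 : ℝ) : ℂ)) * (S : ℂ)‖ ≤
      4 * Cs * B := by
    rw [norm_mul, Complex.norm_real, Real.norm_eq_abs]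
    refine (mul_le_mul (ThreePrimes.abs_tripleSum_one_sub_le (by omega)) hS2 (abs_nonneg _)
      (by positivity)).trans ?_
    have h1 := hpow 6 0 (by norm_num) (by norm_num)
    rw [pow_zero, mul_one, ht6] at h1
    have := mul_le_mul_of_nonneg_left h1 hCs.le
    linarith
  have hser' : ‖((((N : ℝ) ^ 2 / 2) * (S - singularSeries N) : ℝ) : ℂ)‖ ≤ (16 + Ct) * B := by
    rw [Complex.norm_real, Real.norm_eq_abs, abs_mul, abs_of_nonneg (by positivity), abs_sub_comm,
      hS]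
    refine (mul_le_mul_of_nonneg_left (htr N P hN2 hP0 hPN) (by positivity)).trans ?_
    rw [← hl]
    have h1 : (N : ℝ) ^ 2 / 2 * (16 * l ^ 2 / P) ≤ 16 * B := by
      have hP2 : t / 2 ≤ (P : ℝ) := by
        have := Nat.lt_floor_add_one t
        rw [← hP] at this
        linarith
      refine (mul_le_mul_of_nonneg_left (div_le_div_of_nonneg_left (by positivity)
        (by positivity) hP2) (by positivity)).trans ?_
      rw [← ht6, show (t ^ 6) ^ 2 / 2 * (16 * l ^ 2 / (t / 2)) = 16 * (t ^ 11 * l ^ 2) by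
        field_simp]
      have := hpow 11 2 le_rfl (by norm_num)
      linarith
    have h2 : (N : ℝ) ^ 2 / 2 * (Ct * (N : ℝ) ^ (-(1 / 4) : ℝ)) ≤ Ct * B := by
      have h3 : (N : ℝ) ^ 2 * (N : ℝ) ^ (-(1 / 4) : ℝ) ≤ (N : ℝ) ^ (11 / 6 : ℝ) := by
        rw [← Real.rpow_natCast, ← Real.rpow_add (by linarith)]
        exact Real.rpow_le_rpow_of_exponent_le hN1 (by norm_num)
      have h4 : (N : ℝ) ^ (11 / 6 : ℝ) ≤ B := by
        refine le_trans (le_of_eq ?_) ((mul_one _).ge.trans (hpow 11 0 le_rfl (by norm_num)))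
        rw [ht, sixth, ← Real.rpow_natCast, ← Real.rpow_mul (Nat.cast_nonneg N)]
        norm_num
      calc (N : ℝ) ^ 2 / 2 * (Ct * (N : ℝ) ^ (-(1 / 4) : ℝ))
          = Ct * ((N : ℝ) ^ 2 * (N : ℝ) ^ (-(1 / 4) : ℝ)) / 2 := by ring
        _ ≤ Ct * B / 2 := by gcongr; exact h3.trans h4
        _ ≤ _ := by linarith [mul_nonneg hCt hB0]
    linarith
  rw [show tripleSum (fun n => (Λ n : ℂ)) N - ((singularSeries N * ((N : ℝ) ^ 2 / 2) : ℝ) : ℂ) =
      (tripleSum (fun n => (Λ n : ℂ)) N - tripleSum (fun _ => 1) N * (S : ℂ)) +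
        (tripleSum (fun _ => 1) N - (((N : ℝ) ^ 2 / 2 : ℝ) : ℂ)) * (S : ℂ) +
        ((((N : ℝ) ^ 2 / 2) * (S - singularSeries N) : ℝ) : ℂ) by push_cast; ring]
  refine (norm_add₃_le).trans ((add_le_add (add_le_add hmain hJ) hser').trans (le_of_eq ?_))
  ring

theorem triple_vonMangoldt_le (N : ℕ) : triple (Λ ·) (Λ ·) (Λ ·) N ≤ 216 * (N : ℝ) ^ 3 := by
  have hΛ : ∀ n : ℕ, 0 ≤ Λ n := fun n => ArithmeticFunction.vonMangoldt_nonneg
  have hs : ∑ n ∈ Icc 1 N, Λ n ≤ 6 * N := ThreePrimes.sum_vonMangoldt_le N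
  refine (ThreePrimes.triple_le hΛ hΛ (B := 6 * N) (by positivity) fun n hn =>
    (single_le_sum (fun i _ => hΛ i) hn).trans hs).trans ?_
  refine (mul_le_mul_of_nonneg_right (mul_le_mul hs hs (sum_nonneg fun i _ => hΛ i)
    (by positivity)) (by positivity)).trans (le_of_eq (by ring))

/-- **Hardy and Littlewood's formula.** -/
theorem exists_asymptotic : ∃ C, 0 ≤ C ∧ ∀ N : ℕ, 2 ≤ N → GRHUpTo N →
    |triple (Λ ·) (Λ ·) (Λ ·) N - singularSeries N * ((N : ℝ) ^ 2 / 2)| ≤ C * errorTerm N := by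
  obtain ⟨C, hC, h⟩ := exists_asymptotic_large
  obtain ⟨Cs, hCs, hser⟩ := ThreePrimes.exists_singular_tail
  refine ⟨C + 8 * (216 * 64 + Cs), by positivity, fun N hN hG => ?_⟩
  have hl : 0.69 ≤ Real.log N := by
    have := Real.log_le_log two_pos (show (2 : ℝ) ≤ N by exact_mod_cast hN)
    linarith [Real.log_two_gt_d9]
  have hE : 0 ≤ errorTerm N := by
    rw [errorTerm_eq]
    positivity
  rcases le_or_gt 64 N with hle | hlt
  · have h1 := h N hle hG
    rw [ThreePrimes.triple_cast, ← Complex.ofReal_sub, Complex.norm_real, Real.norm_eq_abs] at h1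
    have : 0 ≤ 8 * (216 * 64 + Cs) * errorTerm N := by positivity
    linarith
  · have hN64 : (N : ℝ) ≤ 64 := by exact_mod_cast hlt.le
    have hN2 : (N : ℝ) ^ 2 ≤ 8 * errorTerm N := by
      have ht1 := one_le_sixth (show 1 ≤ N by omega)
      have ht2 : sixth N ≤ 2 := by
        refine le_of_pow_le_pow_left₀ (show 6 ≠ 0 by norm_num) two_pos.le ?_
        rw [sixth_pow]
        linarith
      rw [← sixth_pow N, errorTerm]
      have h3 : (0.3 : ℝ) ≤ Real.log N ^ 3 :=
        le_trans (by norm_num) (pow_le_pow_left₀ (by norm_num) hl 3)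
      have h4 := mul_le_mul_of_nonneg_left h3 (pow_nonneg (zero_le_one.trans ht1) 11)
      have h5 := mul_le_mul_of_nonneg_left ht2 (pow_nonneg (zero_le_one.trans ht1) 11)
      have h6 := pow_nonneg (zero_le_one.trans ht1) 11
      linarith
    have h1 : triple (Λ ·) (Λ ·) (Λ ·) N ≤ 216 * 64 * (N : ℝ) ^ 2 :=
      (triple_vonMangoldt_le N).trans (by nlinarith [sq_nonneg (N : ℝ)])
    have h2 : |singularSeries N * ((N : ℝ) ^ 2 / 2)| ≤ Cs * (N : ℝ) ^ 2 := by
      rw [abs_mul, abs_of_nonneg (show (0 : ℝ) ≤ (N : ℝ) ^ 2 / 2 by positivity)]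
      exact mul_le_mul (hser N 0).2 (by linarith [sq_nonneg (N : ℝ)]) (by positivity) hCs.le
    refine (abs_sub _ _).trans ((add_le_add ((abs_of_nonneg (ThreePrimes.triple_nonneg
      (fun n => ArithmeticFunction.vonMangoldt_nonneg) (fun n =>
        ArithmeticFunction.vonMangoldt_nonneg) (fun n =>
        ArithmeticFunction.vonMangoldt_nonneg) N)).le.trans h1) h2).trans ?_)
    have h3 := mul_le_mul_of_nonneg_left hN2 (show (0 : ℝ) ≤ 216 * 64 + Cs by positivity)
    have : 0 ≤ C * errorTerm N := by positivity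
    linarith

/-- `log p` on the primes. -/
def primeLog (n : ℕ) : ℝ := if n.Prime then Real.log n else 0

theorem primeLog_add_powerPart (n : ℕ) : primeLog n + powerPart n = Λ n := by
  unfold primeLog powerPart
  split_ifs with hp
  · rw [add_zero, ArithmeticFunction.vonMangoldt_apply_prime hp]
  · rw [zero_add]

theorem triple_add_left (f f' g h : ℕ → ℝ) (N : ℕ) :
    triple (fun n => f n + f' n) g h N = triple f g h N + triple f' g h N := by
  simp only [triple, ← sum_add_distrib]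
  refine sum_congr rfl fun i _ => sum_congr rfl fun j _ => sum_congr rfl fun k _ => ?_
  split_ifs <;> ring

theorem triple_swap_left (f g h : ℕ → ℝ) (N : ℕ) : triple f g h N = triple g f h N := by
  simp only [triple]
  rw [sum_comm]
  refine sum_congr rfl fun j _ => sum_congr rfl fun i _ => sum_congr rfl fun k _ => ?_
  rw [add_comm i j, mul_comm (f i)]

/-- **The formula with primes only.** -/
theorem exists_asymptotic_primes : ∃ C, 0 ≤ C ∧ ∀ N : ℕ, 2 ≤ N → GRHUpTo N →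
    |triple primeLog primeLog primeLog N - singularSeries N * ((N : ℝ) ^ 2 / 2)| ≤
      C * errorTerm N := by
  obtain ⟨C, hC, h⟩ := exists_asymptotic
  refine ⟨C + 72, by positivity, fun N hN hG => ?_⟩
  have hl : 0.5 ≤ Real.log N := by
    have := Real.log_le_log two_pos (show (2 : ℝ) ≤ N by exact_mod_cast hN)
    linarith [Real.log_two_gt_d9]
  have hΛ : ∀ n : ℕ, 0 ≤ Λ n := fun n => ArithmeticFunction.vonMangoldt_nonneg
  have hp : ∀ n : ℕ, 0 ≤ primeLog n := fun n => by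
    unfold primeLog
    split_ifs
    exacts [Real.log_natCast_nonneg n, le_rfl]
  have hpΛ : ∀ n : ℕ, primeLog n ≤ Λ n := fun n => by
    linarith [primeLog_add_powerPart n, ThreePrimes.powerPart_nonneg n]
  have hmax : ∀ n ∈ Icc 1 N, Λ n ≤ Real.log N := fun n hn => by
    rw [mem_Icc] at hn
    exact ArithmeticFunction.vonMangoldt_le_log.trans
      (Real.log_le_log (Nat.cast_pos.2 hn.1) (Nat.cast_le.2 hn.2))
  have hb : ∀ g k : ℕ → ℝ, (∀ n, 0 ≤ g n) → (∀ n, g n ≤ Λ n) → (∀ n, k n ≤ Λ n) →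
      triple powerPart g k N ≤ 24 * errorTerm N := by
    intro g k hg0 hg hk
    refine (ThreePrimes.triple_le ThreePrimes.powerPart_nonneg hg0 (B := Real.log N)
      (by linarith) fun n hn => (hk n).trans (hmax n hn)).trans ?_
    refine (mul_le_mul_of_nonneg_right (mul_le_mul (ThreePrimes.sum_powerPart_le (by omega))
      ((sum_le_sum fun n _ => hg n).trans (ThreePrimes.sum_vonMangoldt_le N))
      (sum_nonneg fun n _ => hg0 n) (by positivity)) (by linarith)).trans ?_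
    have ht1 := one_le_sixth (show 1 ≤ N by omega)
    have hs : √(N : ℝ) = sixth N ^ 3 := by
      rw [← sixth_pow N, show sixth N ^ 6 = (sixth N ^ 3) ^ 2 by ring]
      exact Real.sqrt_sq (by positivity)
    rw [hs, errorTerm]
    nth_rewrite 2 [← sixth_pow N]
    have h1 : sixth N ^ 9 * (Real.log N ^ 2 * 0.5) ≤
        sixth N ^ 11 * (Real.log N ^ 2 * Real.log N) :=
      mul_le_mul (pow_le_pow_right₀ ht1 (by norm_num))
        (mul_le_mul_of_nonneg_left hl (sq_nonneg _)) (by positivity) (by positivity)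
    linarith
  have e : triple (Λ ·) (Λ ·) (Λ ·) N = triple primeLog primeLog primeLog N +
      triple powerPart primeLog primeLog N + triple powerPart (Λ ·) primeLog N +
      triple powerPart (Λ ·) (Λ ·) N := by
    have h3 : (fun n => primeLog n + powerPart n) = fun n => Λ n := funext primeLog_add_powerPart
    have a1 := triple_add_left primeLog powerPart (Λ ·) (Λ ·) N
    have a2 := triple_add_left primeLog powerPart (Λ ·) primeLog N
    have a3 := triple_add_left primeLog powerPart primeLog primeLog N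
    rw [h3] at a1 a2 a3
    have b1 : triple primeLog (Λ ·) (Λ ·) N = triple (Λ ·) (Λ ·) primeLog N :=
      (triple_swap_left _ _ _ _).trans (ThreePrimes.triple_swap _ _ _ _)
    have b2 : triple primeLog (Λ ·) primeLog N = triple (Λ ·) primeLog primeLog N :=
      triple_swap_left _ _ _ _
    linarith
  have h1 := hb primeLog primeLog hp hpΛ hpΛ
  have h2 := hb (Λ ·) primeLog hΛ (fun _ => le_rfl) hpΛ
  have h3 := hb (Λ ·) (Λ ·) hΛ (fun _ => le_rfl) (fun _ => le_rfl)
  have n1 := ThreePrimes.triple_nonneg ThreePrimes.powerPart_nonneg hp hp N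
  have n2 := ThreePrimes.triple_nonneg ThreePrimes.powerPart_nonneg hΛ hp N
  have n3 := ThreePrimes.triple_nonneg ThreePrimes.powerPart_nonneg hΛ hΛ N
  have hm := abs_le.1 (h N hN hG)
  rw [abs_le]
  constructor <;> linarith

end FA.GRHThreePrimes

end
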